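import Fermat.Agent.LT.H129.EllParamSpec

/-!
# Row LT, tower T6, sub-leaf T6.14b.L2 `LatRigidC129` (rigidity) — helper286, OFF-MAIN

Registry row 1165.  Spec bytes: `LT/H129/EllParamSpec.lean` (helper129@6c63cff25, sha256
9e6fc0e0), `LT/T6/H847/EllRamSpec.lean` (3578c164), `LT/T6/Spec.lean` (89f8f8b8): byte-identical
copies.  Mathlib + these three files only.

`latRigidC286 : H129.LatRigidC129`.

Proof (conductor of the lattice; no inverse in `E` is computed).  `M₀ = e(0, νⁿ)` satisfies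
`M₀ · latMat n ξ = latMat n ξ · C`, `C = !![0, -ν^(2n+1); 1, τ νⁿ]` integral.  If
`L' = t L u` with `t = e(a, b)` (which commutes with `M₀`) and `u ∈ GL₂(𝒪)`, then
`M₀ L' = L' D` with `D = u⁻¹ C u` integral; comparing the first columns,
`ν^n' · D₁₀ · N(1, ξ') = νⁿ · N(1, ξ')`, so `n' ≤ n`.  The inverse relation gives `n ≤ n'`.
Then `|det t| = 1`, i.e. `|a² + τ a b + ν b²| = 1`, which forces `|a| = 1`, `|b| ≤ 1`.
-/

set_option autoImplicit false

open scoped Matrix

noncomputable section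

namespace Fermat.Agent.LT.T6.H286

open Fermat.Agent.LT.T6 Fermat.Agent.LT.T6.H847 Fermat.Agent.LT.H129

/-! ## 1. The value group `ℤᵐ⁰` -/

theorem le_exp_neg_one_of_lt_one286 {x : Γ₀} (h : x < 1) : x ≤ WithZero.exp (-1 : ℤ) := by
  rcases eq_or_ne x 0 with rfl | hx
  · exact zero_le
  · rw [← WithZero.log_le_iff_le_exp hx]
    have h1 : WithZero.log x < 0 := by
      rw [WithZero.log_lt_iff_lt_exp hx, WithZero.exp_zero]
      exact h
    omega

theorem exp_one_le_of_one_lt286 {x : Γ₀} (h : 1 < x) : WithZero.exp (1 : ℤ) ≤ x := by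
  have hx : x ≠ 0 := (zero_lt_one.trans h).ne'
  rw [← WithZero.le_log_iff_exp_le hx]
  have h1 : 0 < WithZero.log x := by
    rw [WithZero.lt_log_iff_exp_lt hx, WithZero.exp_zero]
    exact h
  omega

theorem exp_neg_one_pow286 (n : ℕ) :
    (WithZero.exp (-1 : ℤ) : Γ₀) ^ n = WithZero.exp (-(n : ℤ)) := by
  rw [← WithZero.exp_nsmul]
  congr 1
  simp

theorem exp_neg_one_lt_one286 : (WithZero.exp (-1 : ℤ) : Γ₀) < 1 := by
  rw [← WithZero.exp_zero, WithZero.exp_lt_exp]
  omega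

/-! ## 2. Matrices -/

section Alg

variable {k : Type} [Field k]

theorem det_embMat286 (τ ν a b : k) :
    (embMat τ ν a b).det = a ^ 2 + τ * a * b + ν * b ^ 2 := by
  simp only [embMat, Matrix.det_fin_two_of]
  ring

theorem det_latMat286 (τ ν : k) (n : ℕ) (ξ : k) :
    (latMat τ ν n ξ).det = ν ^ n * (1 + τ * ξ + ν * ξ ^ 2) := by
  simp only [latMat, Matrix.det_fin_two_of]
  ring

theorem embMat_comm286 (τ ν a b c d : k) :
    embMat τ ν a b * embMat τ ν c d = embMat τ ν c d * embMat τ ν a b := by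
  ext i j
  fin_cases i <;> fin_cases j <;>
    simp [embMat, Matrix.mul_apply, Fin.sum_univ_two] <;> ring

end Alg

variable {k : Type} [Field k] [Valued k Γ₀]

theorem ne_zero_of_val286 {ν : k} (hν : Valued.v ν = WithZero.exp (-1 : ℤ)) : ν ≠ 0 := by
  intro h
  rw [h, map_zero] at hν
  exact WithZero.exp_ne_zero hν.symm

theorem val_lt_one_mul286 {x y : k} (hx : Valued.v x < 1) (hy : Valued.v y ≤ 1) :
    Valued.v (x * y) < 1 := by
  rw [map_mul]
  calc Valued.v x * Valued.v y ≤ Valued.v x * 1 := mul_le_mul' le_rfl hy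
    _ = Valued.v x := mul_one _
    _ < 1 := hx

theorem val_le_one_mul286 {x y : k} (hx : Valued.v x ≤ 1) (hy : Valued.v y ≤ 1) :
    Valued.v (x * y) ≤ 1 := by
  rw [map_mul]
  exact mul_le_one' hx hy

theorem val_norm_one286 {τ ν ξ : k} (hν : Valued.v ν = WithZero.exp (-1 : ℤ))
    (hτ : Valued.v τ < 1) (hξ : Valued.v ξ ≤ 1) :
    Valued.v (1 + τ * ξ + ν * ξ ^ 2) = 1 := by
  have hν1 : Valued.v ν < 1 := by rw [hν]; exact exp_neg_one_lt_one286
  have h1 : Valued.v (τ * ξ) < 1 := val_lt_one_mul286 hτ hξ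
  have h2 : Valued.v (ν * ξ ^ 2) < 1 :=
    val_lt_one_mul286 hν1 (by rw [map_pow]; exact pow_le_one' hξ 2)
  have h3 : Valued.v (τ * ξ + ν * ξ ^ 2) < 1 := Valuation.map_add_lt _ h1 h2
  rw [add_assoc]
  exact Valued.v.map_one_add_of_lt h3

theorem norm_ne_zero286 {τ ν ξ : k} (hν : Valued.v ν = WithZero.exp (-1 : ℤ))
    (hτ : Valued.v τ < 1) (hξ : Valued.v ξ ≤ 1) : 1 + τ * ξ + ν * ξ ^ 2 ≠ 0 := by
  intro h
  have := val_norm_one286 hν hτ hξ
  rw [h, map_zero] at this
  exact zero_ne_one this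

theorem latGL_coe286 {τ ν : k} (hν : Valued.v ν = WithZero.exp (-1 : ℤ))
    (hτ : Valued.v τ < 1) (n : ℕ) {ξ : k} (hξ : Valued.v ξ ≤ 1) :
    ((latGL τ ν n ξ : GL (Fin 2) k) : Matrix (Fin 2) (Fin 2) k) = latMat τ ν n ξ := by
  have hdet : (latMat τ ν n ξ).det ≠ 0 := by
    rw [det_latMat286]
    exact mul_ne_zero (pow_ne_zero _ (ne_zero_of_val286 hν)) (norm_ne_zero286 hν hτ hξ)
  unfold latGL
  rw [dif_pos hdet]
  rfl

/-- Integral `2 × 2` matrices. -/
def IsInt286 (M : Matrix (Fin 2) (Fin 2) k) : Prop := ∀ i j, Valued.v (M i j) ≤ 1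

theorem isInt_mul286 {A B : Matrix (Fin 2) (Fin 2) k} (hA : IsInt286 A) (hB : IsInt286 B) :
    IsInt286 (A * B) := by
  intro i j
  rw [Matrix.mul_apply, Fin.sum_univ_two]
  exact Valuation.map_add_le _ (val_le_one_mul286 (hA _ _) (hB _ _))
    (val_le_one_mul286 (hA _ _) (hB _ _))

theorem val_det_le286 {A : Matrix (Fin 2) (Fin 2) k} (hA : IsInt286 A) :
    Valued.v A.det ≤ 1 := by
  rw [Matrix.det_fin_two]
  exact Valuation.map_sub_le _ (val_le_one_mul286 (hA _ _) (hA _ _))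
    (val_le_one_mul286 (hA _ _) (hA _ _))

theorem inU_entry286 {u : GL (Fin 2) k} (hu : InU 0 u) :
    IsInt286 (u : Matrix (Fin 2) (Fin 2) k) ∧
      IsInt286 ((u⁻¹ : GL (Fin 2) k) : Matrix (Fin 2) (Fin 2) k) := by
  have e0 : (WithZero.exp (-((0 : ℕ) : ℤ)) : Γ₀) = 1 := by simp
  have h1 : ∀ i j : Fin 2, Valued.v ((1 : Matrix (Fin 2) (Fin 2) k) i j) ≤ 1 := by
    intro i j
    by_cases hij : i = j
    · subst hij
      simp
    · simp [Matrix.one_apply_ne hij]
  constructor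
  · intro i j
    have h := (hu i j).1
    rw [e0] at h
    have := Valuation.map_add_le _ h (h1 i j)
    simpa using this
  · intro i j
    have h := (hu i j).2
    rw [e0] at h
    have := Valuation.map_add_le _ h (h1 i j)
    simpa using this

theorem inU_inv286 {u : GL (Fin 2) k} (hu : InU 0 u) : InU 0 u⁻¹ := by
  intro i j
  refine ⟨(hu i j).2, ?_⟩
  rw [inv_inv]
  exact (hu i j).1

theorem val_det_inU286 {u : GL (Fin 2) k} (hu : InU 0 u) :
    Valued.v (u : Matrix (Fin 2) (Fin 2) k).det = 1 := by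
  obtain ⟨hU, hU'⟩ := inU_entry286 hu
  have d1 := val_det_le286 hU
  have d2 := val_det_le286 hU'
  have hmul : (u : Matrix (Fin 2) (Fin 2) k).det *
      ((u⁻¹ : GL (Fin 2) k) : Matrix (Fin 2) (Fin 2) k).det = 1 := by
    rw [← Matrix.det_mul, ← Units.val_mul, mul_inv_cancel, Units.val_one, Matrix.det_one]
  have h3 : Valued.v (u : Matrix (Fin 2) (Fin 2) k).det *
      Valued.v ((u⁻¹ : GL (Fin 2) k) : Matrix (Fin 2) (Fin 2) k).det = 1 := by
    rw [← map_mul, hmul, map_one]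
  refine le_antisymm d1 ?_
  by_contra hlt
  push Not at hlt
  have h4 : Valued.v (u : Matrix (Fin 2) (Fin 2) k).det *
      Valued.v ((u⁻¹ : GL (Fin 2) k) : Matrix (Fin 2) (Fin 2) k).det < 1 :=
    calc _ ≤ Valued.v (u : Matrix (Fin 2) (Fin 2) k).det * 1 := mul_le_mul' le_rfl d2
      _ = _ := mul_one _
      _ < 1 := hlt
  rw [h3] at h4
  exact lt_irrefl _ h4

/-! ## 3. The conductor argument -/

/-- One inequality: if `L' = t L u` with `t` commuting with `e(0, νⁿ)` and `u ∈ GL₂(𝒪)`, then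
`n' ≤ n`. -/
theorem le_of_rel286 {τ ν : k} (hν : Valued.v ν = WithZero.exp (-1 : ℤ))
    (hτ : Valued.v τ < 1) {n n' : ℕ} {ξ ξ' : k} (hξ : Valued.v ξ ≤ 1) (hξ' : Valued.v ξ' ≤ 1)
    {t u : GL (Fin 2) k}
    (ht : (t : Matrix (Fin 2) (Fin 2) k) * embMat τ ν 0 (ν ^ n)
      = embMat τ ν 0 (ν ^ n) * (t : Matrix (Fin 2) (Fin 2) k))
    (hu : InU 0 u) (h : latGL τ ν n' ξ' = t * latGL τ ν n ξ * u) : n' ≤ n := by
  obtain ⟨hU, hU'⟩ := inU_entry286 hu
  have hL' : latMat τ ν n' ξ'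
      = (t : Matrix (Fin 2) (Fin 2) k) * latMat τ ν n ξ * (u : Matrix (Fin 2) (Fin 2) k) := by
    have h1 := congrArg (fun g : GL (Fin 2) k => (g : Matrix (Fin 2) (Fin 2) k)) h
    simp only [Units.val_mul] at h1
    rw [latGL_coe286 hν hτ n' hξ', latGL_coe286 hν hτ n hξ] at h1
    exact h1
  have hUU' : (u : Matrix (Fin 2) (Fin 2) k) * ((u⁻¹ : GL (Fin 2) k) : Matrix (Fin 2) (Fin 2) k)
      = 1 := by
    rw [← Units.val_mul, mul_inv_cancel, Units.val_one]
  set C : Matrix (Fin 2) (Fin 2) k := !![0, -(ν ^ (2 * n + 1)); 1, τ * ν ^ n] with hCdef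
  have hCint : IsInt286 C := by
    have hν1 : Valued.v ν ≤ 1 := by rw [hν]; exact exp_neg_one_lt_one286.le
    intro i j
    fin_cases i <;> fin_cases j
    · simp [hCdef]
    · simp only [hCdef, Fin.zero_eta, Fin.mk_one, Matrix.of_apply, Matrix.cons_val', Matrix.cons_val_zero,
        Matrix.cons_val_one, Matrix.empty_val', Matrix.cons_val_fin_one]
      rw [Valuation.map_neg, map_pow]
      exact pow_le_one' hν1 _
    · simp [hCdef]
    · simp only [hCdef, Fin.mk_one, Matrix.of_apply, Matrix.cons_val',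
        Matrix.cons_val_one, Matrix.empty_val', Matrix.cons_val_fin_one]
      exact val_le_one_mul286 hτ.le (by rw [map_pow]; exact pow_le_one' hν1 _)
  have hC : embMat τ ν 0 (ν ^ n) * latMat τ ν n ξ = latMat τ ν n ξ * C := by
    refine Matrix.ext fun i j => ?_
    fin_cases i <;> fin_cases j <;>
      simp only [embMat, latMat, hCdef, Matrix.mul_apply, Fin.sum_univ_two, Matrix.of_apply,
        Matrix.cons_val', Matrix.cons_val_zero, Matrix.cons_val_one, Matrix.empty_val',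
        Matrix.cons_val_fin_one, Fin.zero_eta, Fin.mk_one, Fin.isValue] <;> ring
  set D : Matrix (Fin 2) (Fin 2) k :=
    ((u⁻¹ : GL (Fin 2) k) : Matrix (Fin 2) (Fin 2) k) * C * (u : Matrix (Fin 2) (Fin 2) k)
    with hDdef
  have hDint : IsInt286 D := isInt_mul286 (isInt_mul286 hU' hCint) hU
  have hD : embMat τ ν 0 (ν ^ n) * latMat τ ν n' ξ' = latMat τ ν n' ξ' * D := by
    rw [hL', hDdef]
    calc embMat τ ν 0 (ν ^ n) * ((t : Matrix (Fin 2) (Fin 2) k) * latMat τ ν n ξ *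
          (u : Matrix (Fin 2) (Fin 2) k))
        = (embMat τ ν 0 (ν ^ n) * (t : Matrix (Fin 2) (Fin 2) k)) * latMat τ ν n ξ *
          (u : Matrix (Fin 2) (Fin 2) k) := by simp only [Matrix.mul_assoc]
      _ = (t : Matrix (Fin 2) (Fin 2) k) * (embMat τ ν 0 (ν ^ n) * latMat τ ν n ξ) *
          (u : Matrix (Fin 2) (Fin 2) k) := by rw [← ht]; simp only [Matrix.mul_assoc]
      _ = (t : Matrix (Fin 2) (Fin 2) k) * (latMat τ ν n ξ * C) *
          (u : Matrix (Fin 2) (Fin 2) k) := by rw [hC]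
      _ = (t : Matrix (Fin 2) (Fin 2) k) * latMat τ ν n ξ *
          (((u : Matrix (Fin 2) (Fin 2) k) * ((u⁻¹ : GL (Fin 2) k) : Matrix (Fin 2) (Fin 2) k))
            * (C * (u : Matrix (Fin 2) (Fin 2) k))) := by
            rw [hUU', Matrix.one_mul]; simp only [Matrix.mul_assoc]
      _ = (t : Matrix (Fin 2) (Fin 2) k) * latMat τ ν n ξ * (u : Matrix (Fin 2) (Fin 2) k) *
          (((u⁻¹ : GL (Fin 2) k) : Matrix (Fin 2) (Fin 2) k) * C *
            (u : Matrix (Fin 2) (Fin 2) k)) := by simp only [Matrix.mul_assoc]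
  have h00 := congrFun (congrFun hD 0) 0
  have h10 := congrFun (congrFun hD 1) 0
  simp only [Matrix.mul_apply, Fin.sum_univ_two, embMat, latMat, Matrix.of_apply,
    Matrix.cons_val', Matrix.cons_val_zero, Matrix.cons_val_one, Matrix.empty_val',
    Matrix.cons_val_fin_one] at h00 h10
  have key : ν ^ n' * D 1 0 * (1 + τ * ξ' + ν * ξ' ^ 2) = ν ^ n * (1 + τ * ξ' + ν * ξ' ^ 2) := by
    linear_combination ξ' * h00 - h10
  have key2 : ν ^ n' * D 1 0 = ν ^ n := mul_right_cancel₀ (norm_ne_zero286 hν hτ hξ') key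
  have key3 : Valued.v (ν ^ n' * D 1 0) = Valued.v (ν ^ n) := by rw [key2]
  rw [map_mul, map_pow, map_pow, hν, exp_neg_one_pow286, exp_neg_one_pow286] at key3
  have key4 : (WithZero.exp (-(n : ℤ)) : Γ₀) ≤ WithZero.exp (-(n' : ℤ)) := by
    rw [← key3]
    calc WithZero.exp (-(n' : ℤ)) * Valued.v (D 1 0)
        ≤ WithZero.exp (-(n' : ℤ)) * 1 := mul_le_mul' le_rfl (hDint 1 0)
      _ = _ := mul_one _
  rw [WithZero.exp_le_exp] at key4
  omega

/-! ## 4. The norm form -/

/-- `|a² + τ a b + ν b²| = 1` forces `|a| = 1` and `|b| ≤ 1`. -/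
theorem unit_of_norm_one286 {τ ν a b : k} (hν : Valued.v ν = WithZero.exp (-1 : ℤ))
    (hτ : Valued.v τ < 1) (hN : Valued.v (a ^ 2 + τ * a * b + ν * b ^ 2) = 1) :
    Valued.v a = 1 ∧ Valued.v b ≤ 1 := by
  have hν1 : Valued.v ν < 1 := by rw [hν]; exact exp_neg_one_lt_one286
  have hν0 : ν ≠ 0 := ne_zero_of_val286 hν
  -- Step 1: `|b| ≤ 1`
  have hb : Valued.v b ≤ 1 := by
    by_contra hb
    push Not at hb
    have hb0 : b ≠ 0 := by
      intro h
      rw [h, map_zero] at hb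
      exact not_lt.2 zero_le hb
    have hbe : WithZero.exp (1 : ℤ) ≤ Valued.v b := exp_one_le_of_one_lt286 hb
    set c : k := a / b with hc
    have hac : a = c * b := by rw [hc, div_mul_cancel₀ _ hb0]
    have e1 : a ^ 2 + τ * a * b + ν * b ^ 2 = b ^ 2 * (c * (c + τ) + ν) := by
      rw [hac]; ring
    rw [e1, map_mul, map_pow] at hN
    -- `|c (c + τ) + ν| = |b|⁻² ≤ exp (-2) < |ν|`
    have h2 : Valued.v (c * (c + τ) + ν) < Valued.v ν := by
      have hb2 : WithZero.exp (1 : ℤ) * WithZero.exp (1 : ℤ) ≤ Valued.v b ^ 2 := by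
        rw [pow_two]
        exact mul_le_mul' hbe hbe
      by_contra hcon
      push Not at hcon
      have h3 : WithZero.exp (1 : ℤ) * WithZero.exp (1 : ℤ) * WithZero.exp (-1 : ℤ)
          ≤ Valued.v b ^ 2 * Valued.v (c * (c + τ) + ν) := by
        rw [← hν]
        exact mul_le_mul' hb2 hcon
      rw [hN, ← WithZero.exp_add, ← WithZero.exp_add, ← WithZero.exp_zero,
        WithZero.exp_le_exp] at h3
      omega
    -- hence `|c (c + τ)| = |ν|`
    have h4 : Valued.v (c * (c + τ)) = Valued.v ν := by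
      have h5 : c * (c + τ) = (c * (c + τ) + ν) - ν := by ring
      rw [h5]
      exact Valuation.map_sub_eq_of_lt_right _ h2
    rw [map_mul] at h4
    rcases le_or_gt 1 (Valued.v c) with hc1 | hc1
    · -- `|c| ≥ 1`: `|c + τ| = |c|`
      have h6 : Valued.v (c + τ) = Valued.v c :=
        Valuation.map_add_eq_of_lt_left _ (lt_of_lt_of_le hτ hc1)
      rw [h6] at h4
      have h7 : (1 : Γ₀) ≤ Valued.v c * Valued.v c := by
        calc (1 : Γ₀) = 1 * 1 := (mul_one 1).symm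
          _ ≤ Valued.v c * Valued.v c := mul_le_mul' hc1 hc1
      rw [h4] at h7
      exact not_lt.2 h7 hν1
    · -- `|c| < 1`: `|c (c + τ)| ≤ exp (-2)`
      have h6 : Valued.v c ≤ WithZero.exp (-1 : ℤ) := le_exp_neg_one_of_lt_one286 hc1
      have h7 : Valued.v (c + τ) ≤ WithZero.exp (-1 : ℤ) :=
        Valuation.map_add_le _ h6 (le_exp_neg_one_of_lt_one286 hτ)
      have h8 : Valued.v c * Valued.v (c + τ)
          ≤ WithZero.exp (-1 : ℤ) * WithZero.exp (-1 : ℤ) := mul_le_mul' h6 h7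
      rw [h4, hν, ← WithZero.exp_add, WithZero.exp_le_exp] at h8
      omega
  refine ⟨?_, hb⟩
  -- Step 2: `|a| = 1`
  have h1 : Valued.v (τ * a * b + ν * b ^ 2) < max 1 (Valued.v a ^ 2) := by
    have hνb : Valued.v (ν * b ^ 2) < 1 :=
      val_lt_one_mul286 hν1 (by rw [map_pow]; exact pow_le_one' hb 2)
    rcases le_or_gt (Valued.v a) 1 with ha | ha
    · have : Valued.v (τ * a * b) < 1 := by
        rw [mul_assoc]
        exact val_lt_one_mul286 hτ (val_le_one_mul286 ha hb)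
      exact lt_of_lt_of_le (Valuation.map_add_lt _ this hνb) (le_max_left _ _)
    · have h2 : Valued.v (τ * a * b) < Valued.v a ^ 2 := by
        have e : τ * a * b = (τ * b) * a := by ring
        rw [e, map_mul, pow_two]
        have h3 : Valued.v (τ * b) < 1 := val_lt_one_mul286 hτ hb
        have ha0 : (0 : Γ₀) < Valued.v a := lt_trans zero_lt_one ha
        calc Valued.v (τ * b) * Valued.v a < 1 * Valued.v a :=
              mul_lt_mul_of_pos_right (lt_of_lt_of_le h3 le_rfl) ha0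
          _ = Valued.v a := one_mul _
          _ = 1 * Valued.v a := (one_mul _).symm
          _ ≤ Valued.v a * Valued.v a := mul_le_mul' ha.le le_rfl
      have h4 : (1 : Γ₀) < Valued.v a ^ 2 := by
        rw [pow_two]
        calc (1 : Γ₀) = 1 * 1 := (mul_one 1).symm
          _ ≤ 1 * Valued.v a := mul_le_mul' le_rfl ha.le
          _ = Valued.v a := one_mul _
          _ < Valued.v a * Valued.v a := by
              have ha0 : (0 : Γ₀) < Valued.v a := lt_trans zero_lt_one ha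
              calc Valued.v a = 1 * Valued.v a := (one_mul _).symm
                _ < Valued.v a * Valued.v a := mul_lt_mul_of_pos_right ha ha0
      exact lt_of_lt_of_le (Valuation.map_add_lt _ h2 (lt_trans hνb h4)) (le_max_right _ _)
  rcases le_or_gt (Valued.v a) 1 with ha | ha
  · -- `|a| ≤ 1`: the rest is `< 1`, so `|a²| = 1`
    have hrest : Valued.v (τ * a * b + ν * b ^ 2) < 1 := by
      have hνb : Valued.v (ν * b ^ 2) < 1 :=
        val_lt_one_mul286 hν1 (by rw [map_pow]; exact pow_le_one' hb 2)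
      have : Valued.v (τ * a * b) < 1 := by
        rw [mul_assoc]
        exact val_lt_one_mul286 hτ (val_le_one_mul286 ha hb)
      exact Valuation.map_add_lt _ this hνb
    have e : a ^ 2 = (a ^ 2 + τ * a * b + ν * b ^ 2) - (τ * a * b + ν * b ^ 2) := by ring
    have h2 : Valued.v (a ^ 2) = 1 := by
      rw [e, ← hN]
      exact Valuation.map_sub_eq_of_lt_left _ (by rw [hN]; exact hrest)
    rw [map_pow] at h2
    refine le_antisymm ha ?_
    by_contra hlt
    push Not at hlt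
    have h3 : Valued.v a ^ 2 < 1 := by
      rw [pow_two]
      calc Valued.v a * Valued.v a ≤ Valued.v a * 1 := mul_le_mul' le_rfl ha
        _ = Valued.v a := mul_one _
        _ < 1 := hlt
    rw [h2] at h3
    exact lt_irrefl _ h3
  · -- `|a| > 1`: `|N| = |a|² > 1`
    exfalso
    have h4 : (1 : Γ₀) < Valued.v a ^ 2 := by
      rw [pow_two]
      have ha0 : (0 : Γ₀) < Valued.v a := lt_trans zero_lt_one ha
      calc (1 : Γ₀) < Valued.v a := ha
        _ = 1 * Valued.v a := (one_mul _).symm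
        _ < Valued.v a * Valued.v a := mul_lt_mul_of_pos_right ha ha0
    have h5 : Valued.v (τ * a * b + ν * b ^ 2) < Valued.v (a ^ 2) := by
      rw [map_pow]
      have := h1
      rwa [max_eq_right h4.le] at this
    have h6 : Valued.v (a ^ 2 + τ * a * b + ν * b ^ 2) = Valued.v (a ^ 2) := by
      rw [add_assoc]
      exact Valuation.map_add_eq_of_lt_left _ h5
    rw [hN, map_pow] at h6
    rw [← h6] at h4
    exact lt_irrefl _ h4

/-! ## 5. The leaf -/

/-- **T6.14b.L2 (rigidity)**, registry row 1165. -/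
theorem latRigidC286 : LatRigidC129 := by
  intro k _ _ τ ν hν hτ n n' ξ ξ' a b t u hξ hξ' ht hu h
  have htc : ∀ c d : k, (t : Matrix (Fin 2) (Fin 2) k) * embMat τ ν c d
      = embMat τ ν c d * (t : Matrix (Fin 2) (Fin 2) k) := by
    intro c d
    rw [ht]
    exact embMat_comm286 τ ν a b c d
  have htt' : (t : Matrix (Fin 2) (Fin 2) k) * ((t⁻¹ : GL (Fin 2) k) : Matrix (Fin 2) (Fin 2) k)
      = 1 := by
    rw [← Units.val_mul, mul_inv_cancel, Units.val_one]
  have ht't : ((t⁻¹ : GL (Fin 2) k) : Matrix (Fin 2) (Fin 2) k) * (t : Matrix (Fin 2) (Fin 2) k)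
      = 1 := by
    rw [← Units.val_mul, inv_mul_cancel, Units.val_one]
  have htc' : ∀ c d : k, ((t⁻¹ : GL (Fin 2) k) : Matrix (Fin 2) (Fin 2) k) * embMat τ ν c d
      = embMat τ ν c d * ((t⁻¹ : GL (Fin 2) k) : Matrix (Fin 2) (Fin 2) k) := by
    intro c d
    calc ((t⁻¹ : GL (Fin 2) k) : Matrix (Fin 2) (Fin 2) k) * embMat τ ν c d
        = ((t⁻¹ : GL (Fin 2) k) : Matrix (Fin 2) (Fin 2) k) * embMat τ ν c d *
          ((t : Matrix (Fin 2) (Fin 2) k) * ((t⁻¹ : GL (Fin 2) k) : Matrix (Fin 2) (Fin 2) k)) := by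
            rw [htt', Matrix.mul_one]
      _ = ((t⁻¹ : GL (Fin 2) k) : Matrix (Fin 2) (Fin 2) k) *
          (embMat τ ν c d * (t : Matrix (Fin 2) (Fin 2) k)) *
          ((t⁻¹ : GL (Fin 2) k) : Matrix (Fin 2) (Fin 2) k) := by simp only [Matrix.mul_assoc]
      _ = ((t⁻¹ : GL (Fin 2) k) : Matrix (Fin 2) (Fin 2) k) *
          ((t : Matrix (Fin 2) (Fin 2) k) * embMat τ ν c d) *
          ((t⁻¹ : GL (Fin 2) k) : Matrix (Fin 2) (Fin 2) k) := by rw [htc c d]
      _ = (((t⁻¹ : GL (Fin 2) k) : Matrix (Fin 2) (Fin 2) k) * (t : Matrix (Fin 2) (Fin 2) k)) *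
          embMat τ ν c d * ((t⁻¹ : GL (Fin 2) k) : Matrix (Fin 2) (Fin 2) k) := by
            simp only [Matrix.mul_assoc]
      _ = embMat τ ν c d * ((t⁻¹ : GL (Fin 2) k) : Matrix (Fin 2) (Fin 2) k) := by
            rw [ht't, Matrix.one_mul]
  have h1 : n' ≤ n := le_of_rel286 hν hτ hξ hξ' (htc 0 (ν ^ n)) hu h
  have hinv : latGL τ ν n ξ = t⁻¹ * latGL τ ν n' ξ' * u⁻¹ := by
    rw [h]
    simp only [mul_assoc, mul_inv_cancel, mul_one, inv_mul_cancel_left]
  have h2 : n ≤ n' := le_of_rel286 hν hτ hξ' hξ (htc' 0 (ν ^ n')) (inU_inv286 hu) hinv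
  have hn : n' = n := le_antisymm h1 h2
  refine ⟨hn, ?_⟩
  subst hn
  -- determinants
  have hL' : latMat τ ν n' ξ'
      = (t : Matrix (Fin 2) (Fin 2) k) * latMat τ ν n' ξ * (u : Matrix (Fin 2) (Fin 2) k) := by
    have h1 := congrArg (fun g : GL (Fin 2) k => (g : Matrix (Fin 2) (Fin 2) k)) h
    simp only [Units.val_mul] at h1
    rw [latGL_coe286 hν hτ n' hξ', latGL_coe286 hν hτ n' hξ] at h1
    exact h1
  have hdet := congrArg Matrix.det hL'
  rw [Matrix.det_mul, Matrix.det_mul, det_latMat286, det_latMat286, ht, det_embMat286] at hdet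
  have hv := congrArg (Valued.v : k → Γ₀) hdet
  simp only [map_mul] at hv
  rw [val_norm_one286 hν hτ hξ', val_norm_one286 hν hτ hξ, val_det_inU286 hu] at hv
  simp only [mul_one] at hv
  have hνn : Valued.v (ν ^ n') ≠ 0 := by
    rw [ne_eq, Valuation.zero_iff]
    exact pow_ne_zero _ (ne_zero_of_val286 hν)
  have hN : Valued.v (a ^ 2 + τ * a * b + ν * b ^ 2) = 1 := by
    have h3 : Valued.v (a ^ 2 + τ * a * b + ν * b ^ 2) * Valued.v (ν ^ n')
        = 1 * Valued.v (ν ^ n') := by rw [one_mul]; exact hv.symm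
    exact mul_right_cancel₀ hνn h3
  exact unit_of_norm_one286 hν hτ hN

end Fermat.Agent.LT.T6.H286

end
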