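import Mathlib
import Fermat.Agent.LT.T6.H830.HCSpec

/-!
# Row LT, tower T6, sub-leaf T6.29.C4 `TriFubiniC` (Fubini on the region `|r| < u`) — helper286

OFF-MAIN.  Registry row 1455.  Spec bytes: `LT/T6/H830/HCSpec.lean` (helper830@99e12b740, sha256
c3e7d846), `LT/T6/SpecArch.lean` (003240b2), `LT/T6/Spec.lean` (v3, 8c5f2ae7): byte-identical
copies.  The proof `triFubini286` uses Mathlib only.

`triFubiniC286 : H830.TriFubiniC`.

Proof.  `F(r, u) = 1_{|r| < u} g(r) h(u)` is the indicator of a measurable set times a continuous
function, and vanishes outside the compact box `[-R, R]²` (`supp h ⊆ [-R, R]`): integrable on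
`ℝ × ℝ`.  `integral_integral_swap`; the inner integrals are `g(r) ∫_{u > |r|} h` and
`1_{u > 0} h(u) ∫_{-u}^{u} g` (`Ioc` versus `Ioo`: `integral_Ioc_eq_integral_Ioo`).
-/

set_option autoImplicit false

open MeasureTheory Set

noncomputable section

namespace Fermat.Agent.LT.T6.H286

/-- The triangular region `|r| < u`. -/
def triSet286 : Set (ℝ × ℝ) := {p | |p.1| < p.2}

theorem measurableSet_triSet286 : MeasurableSet triSet286 :=
  measurableSet_lt (continuous_fst.abs.measurable) continuous_snd.measurable

/-- Fubini on the region `|r| < u` (Mathlib only). -/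
theorem triFubini286 (g h : ℝ → ℂ) (hg : Continuous g) (hh : Continuous h)
    (hc : HasCompactSupport h) :
    (∫ r : ℝ, g r * ∫ u in Set.Ioi |r|, h u) = ∫ u in Set.Ioi (0 : ℝ), h u * ∫ r in (-u)..u, g r := by
  -- the bound of the support
  obtain ⟨R, hR⟩ : ∃ R : ℝ, ∀ u : ℝ, R < |u| → h u = 0 := by
    obtain ⟨R, hR⟩ := hc.isCompact.isBounded.subset_closedBall (0 : ℝ)
    refine ⟨R, fun u hu => ?_⟩
    apply image_eq_zero_of_notMem_tsupport
    intro hmem
    have := hR hmem
    rw [Metric.mem_closedBall, Real.dist_eq, sub_zero] at this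
    exact absurd this (not_le.2 hu)
  set F : ℝ → ℝ → ℂ := fun r u => triSet286.indicator (fun p : ℝ × ℝ => g p.1 * h p.2) (r, u)
    with hF
  -- integrability
  have hcont : Continuous fun p : ℝ × ℝ => g p.1 * h p.2 :=
    (hg.comp continuous_fst).mul (hh.comp continuous_snd)
  set Kb : Set (ℝ × ℝ) := Icc (-R) R ×ˢ Icc (-R) R with hKb
  have hKc : IsCompact Kb := isCompact_Icc.prod isCompact_Icc
  have hKm : MeasurableSet Kb := hKc.isClosed.measurableSet
  have hint : Integrable (Function.uncurry F) (volume.prod volume) := by
    have h1 : IntegrableOn (fun p : ℝ × ℝ => g p.1 * h p.2) (triSet286 ∩ Kb)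
        (volume.prod volume) :=
      (hcont.continuousOn.integrableOn_compact hKc).mono_set inter_subset_right
    have h2 : Integrable ((triSet286 ∩ Kb).indicator fun p : ℝ × ℝ => g p.1 * h p.2)
        (volume.prod volume) :=
      (integrable_indicator_iff (measurableSet_triSet286.inter hKm)).2 h1
    have h3 : Function.uncurry F = (triSet286 ∩ Kb).indicator fun p : ℝ × ℝ => g p.1 * h p.2 := by
      funext p
      obtain ⟨r, u⟩ := p
      simp only [Function.uncurry_apply_pair, hF]
      by_cases hS : (r, u) ∈ triSet286
      · by_cases hK : (r, u) ∈ Kb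
        · rw [indicator_of_mem hS, indicator_of_mem (show (r, u) ∈ triSet286 ∩ Kb from ⟨hS, hK⟩)]
        · rw [indicator_of_mem hS,
            indicator_of_notMem (show (r, u) ∉ triSet286 ∩ Kb from fun hx => hK hx.2)]
          have hru : |r| < u := hS
          have hu : R < |u| := by
            by_contra hcon
            push Not at hcon
            apply hK
            have hu0 : 0 ≤ u := le_trans (abs_nonneg r) hru.le
            rw [abs_of_nonneg hu0] at hcon
            have hr := abs_lt.1 (lt_of_lt_of_le hru hcon)
            exact ⟨⟨hr.1.le, hr.2.le⟩, ⟨by linarith, hcon⟩⟩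
          show g r * h u = 0
          rw [hR u hu, mul_zero]
      · rw [indicator_of_notMem hS,
          indicator_of_notMem (show (r, u) ∉ triSet286 ∩ Kb from fun hx => hS hx.1)]
    rw [h3]
    exact h2
  have hswap := integral_integral_swap (μ := (volume : Measure ℝ)) (ν := (volume : Measure ℝ))
    (f := F) hint
  -- the left hand side
  have hL : ∀ r : ℝ, ∫ u, F r u = g r * ∫ u in Ioi |r|, h u := by
    intro r
    have e : (fun u => F r u) = (Ioi |r|).indicator fun u => g r * h u := by
      funext u
      simp only [hF]
      by_cases hu : |r| < u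
      · rw [indicator_of_mem (show (r, u) ∈ triSet286 from hu),
          indicator_of_mem (show u ∈ Ioi |r| from hu)]
      · rw [indicator_of_notMem (show (r, u) ∉ triSet286 from hu),
          indicator_of_notMem (show u ∉ Ioi |r| from hu)]
    rw [e, integral_indicator measurableSet_Ioi, integral_const_mul]
  -- the right hand side
  have hRr : ∀ u : ℝ, ∫ r, F r u = (Ioi (0 : ℝ)).indicator
      (fun u => h u * ∫ r in (-u)..u, g r) u := by
    intro u
    by_cases hu : 0 < u
    · rw [indicator_of_mem (show u ∈ Ioi (0 : ℝ) from hu)]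
      have e : (fun r => F r u) = (Ioo (-u) u).indicator fun r => g r * h u := by
        funext r
        simp only [hF]
        by_cases hr : |r| < u
        · rw [indicator_of_mem (show (r, u) ∈ triSet286 from hr),
            indicator_of_mem (show r ∈ Ioo (-u) u from abs_lt.1 hr)]
        · rw [indicator_of_notMem (show (r, u) ∉ triSet286 from hr),
            indicator_of_notMem (show r ∉ Ioo (-u) u from fun hx => hr (abs_lt.2 hx))]
      rw [e, integral_indicator measurableSet_Ioo, integral_mul_const,
        intervalIntegral.integral_of_le (by linarith : -u ≤ u), integral_Ioc_eq_integral_Ioo,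
        mul_comm]
    · rw [indicator_of_notMem (show u ∉ Ioi (0 : ℝ) from hu)]
      have e : (fun r => F r u) = fun _ => 0 := by
        funext r
        simp only [hF]
        rw [indicator_of_notMem]
        intro hr
        have : |r| < u := hr
        exact hu (lt_of_le_of_lt (abs_nonneg r) this)
      rw [e, integral_zero]
  calc (∫ r : ℝ, g r * ∫ u in Ioi |r|, h u)
      = ∫ r, ∫ u, F r u := by simp_rw [hL]
    _ = ∫ u, ∫ r, F r u := hswap
    _ = ∫ u, (Ioi (0 : ℝ)).indicator (fun u => h u * ∫ r in (-u)..u, g r) u := by simp_rw [hRr]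
    _ = ∫ u in Ioi (0 : ℝ), h u * ∫ r in (-u)..u, g r := integral_indicator measurableSet_Ioi

/-- **T6.29.C4 TRI-FUBINI**, registry row 1455. -/
theorem triFubiniC286 : Fermat.Agent.LT.T6.H830.TriFubiniC :=
  fun g h hg hh hc => triFubini286 g h hg hh hc

end Fermat.Agent.LT.T6.H286

end
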